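/-
Project DS (S48), cell DS-W, leaf [W2] (helper3's plan, φ-form).  Prefix `dsw2_`.

The inverse Teichmüller character relative to a residue map `φ : ℤ̄ → k` (`ℤ̄ = integralClosure ℤ ℂ`,
`k` a field of odd characteristic `ℓ`): `φ` maps `μ_{ℓ-1}(ℤ̄)` bijectively onto the image of
`(ℤ/ℓ)ˣ` in `k`; `χ a` is the root of unity with `φ (χ a) · a = 1`.  `χ` is odd and
`u = ∑_{a<ℓ} a χ(a)` has `φ u = -1`.
-/
import Mathlib
import Fermat.Agent.DS.Seams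

set_option autoImplicit false

noncomputable section

open Polynomial

namespace Fermat.Agent.DS

section Generic

variable {k : Type*} [Field k] (φ : ds_Zb →+* k)

/-- `φ` is injective on the `n`-th roots of unity when `n` is invertible in `k`: kernel form. -/
theorem dsw2_inj_one {n : ℕ} (hn : (n : k) ≠ 0) {x : ds_Zb} (hx : x ^ n = 1) (h : φ x = 1) :
    x = 1 := by
  have h1 : (x - 1) * ∑ i ∈ Finset.range n, x ^ i = 0 := by
    rw [mul_geom_sum, hx, sub_self]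
  rcases mul_eq_zero.mp h1 with h2 | h2
  · exact sub_eq_zero.mp h2
  · exfalso
    apply hn
    have := congrArg φ h2
    simpa [map_sum, map_pow, h] using this

/-- `φ` is injective on the `n`-th roots of unity when `n` is invertible in `k`. -/
theorem dsw2_inj {n : ℕ} (hn : (n : k) ≠ 0) {x y : ds_Zb} (hx : x ^ n = 1) (hy : y ^ n = 1)
    (h : φ x = φ y) : x = y := by
  have hn0 : n ≠ 0 := by
    rintro rfl
    exact hn (by simp)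
  have hyy : y * y ^ (n - 1) = 1 := by
    rw [← pow_succ', Nat.sub_add_cancel (Nat.pos_of_ne_zero hn0), hy]
  have hz : (x * y ^ (n - 1)) ^ n = 1 := by
    rw [mul_pow, hx, one_mul, ← pow_mul, mul_comm, pow_mul, hy, one_pow]
  have hφ : φ (x * y ^ (n - 1)) = 1 := by
    rw [map_mul, h, ← map_mul, hyy, map_one]
  have := dsw2_inj_one φ hn hz hφ
  calc x = x * (y * y ^ (n - 1)) := by rw [hyy, mul_one]
    _ = (x * y ^ (n - 1)) * y := by ring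
    _ = y := by rw [this, one_mul]

/-- `ℤ̄` contains a primitive `n`-th root of unity. -/
theorem dsw2_exists_primitiveRoot {n : ℕ} (hn : n ≠ 0) : ∃ ζ : ds_Zb, IsPrimitiveRoot ζ n := by
  have h := Complex.isPrimitiveRoot_exp n hn
  have hint : IsIntegral ℤ (Complex.exp (2 * Real.pi * Complex.I / n)) :=
    IsIntegral.of_pow (Nat.pos_of_ne_zero hn) (by rw [h.pow_eq_one]; exact isIntegral_one)
  refine ⟨⟨_, hint⟩, ?_⟩
  exact IsPrimitiveRoot.of_map_of_injective (f := (integralClosure ℤ ℂ).val) h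
    Subtype.val_injective

/-- every `n`-th root of unity of `k` lifts to an `n`-th root of unity of `ℤ̄`. -/
theorem dsw2_exists_lift {n : ℕ} (hn : 0 < n) {b : k} (hb : b ^ n = 1) :
    ∃ x : ds_Zb, x ^ n = 1 ∧ φ x = b := by
  obtain ⟨ζ, hζ⟩ := dsw2_exists_primitiveRoot hn.ne'
  have h1 := X_pow_sub_one_eq_prod hn hζ
  have h2 := congrArg (fun p => (p.map φ).eval b) h1
  simp only [Polynomial.map_sub, Polynomial.map_pow, map_X, Polynomial.map_one, eval_sub,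
    eval_pow, eval_X, eval_one, Polynomial.map_prod, eval_prod, map_C] at h2
  rw [hb, sub_self] at h2
  obtain ⟨x, hx, hx0⟩ := Finset.prod_eq_zero_iff.mp h2.symm
  refine ⟨x, (mem_nthRootsFinset hn 1).mp hx, ?_⟩
  rw [eval_C] at hx0
  exact (sub_eq_zero.mp hx0).symm

end Generic

section Main

variable {ℓ : ℕ} [Fact ℓ.Prime] {k : Type*} [Field k] [CharP k ℓ] (φ : ds_Zb →+* k)

theorem dsw2_pred_pos : 0 < ℓ - 1 := Nat.sub_pos_of_lt (Fact.out : ℓ.Prime).one_lt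

theorem dsw2_pred_ne_zero : (((ℓ - 1 : ℕ)) : k) ≠ 0 := by
  intro h
  rw [CharP.cast_eq_zero_iff k ℓ] at h
  exact Nat.not_dvd_of_pos_of_lt (dsw2_pred_pos (ℓ := ℓ)) (Nat.sub_lt (Fact.out : ℓ.Prime).pos
    Nat.one_pos) h

/-- the residue class of a unit of `ℤ/ℓ` in `k`. -/
def dsw2_res (a : (ZMod ℓ)ˣ) : k := ZMod.castHom (dvd_refl ℓ) k (a : ZMod ℓ)

theorem dsw2_res_mul (a b : (ZMod ℓ)ˣ) :
    dsw2_res (k := k) (a * b) = dsw2_res a * dsw2_res b := by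
  simp [dsw2_res]

theorem dsw2_res_one : dsw2_res (k := k) (1 : (ZMod ℓ)ˣ) = 1 := by
  simp [dsw2_res]

theorem dsw2_res_pow (a : (ZMod ℓ)ˣ) : dsw2_res (k := k) a ^ (ℓ - 1) = 1 := by
  have h := ZMod.units_pow_card_sub_one_eq_one ℓ a
  have h2 : ((a : ZMod ℓ)) ^ (ℓ - 1) = 1 := by
    rw [← Units.val_pow_eq_pow_val, h, Units.val_one]
  rw [dsw2_res, ← map_pow, h2, map_one]

theorem dsw2_res_val (a : (ZMod ℓ)ˣ) : (((a : ZMod ℓ).val : ℕ) : k) = dsw2_res a := by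
  rw [dsw2_res, ZMod.castHom_apply, ZMod.natCast_val]

/-- the Teichmüller-inverse lift: the root of unity `w a ∈ μ_{ℓ-1}(ℤ̄)` with `φ (w a) = a⁻¹`. -/
def dsw2_w (a : (ZMod ℓ)ˣ) : ds_Zb :=
  Classical.choose (dsw2_exists_lift φ (dsw2_pred_pos (ℓ := ℓ)) (dsw2_res_pow (k := k) a⁻¹))

theorem dsw2_w_pow (a : (ZMod ℓ)ˣ) : dsw2_w φ a ^ (ℓ - 1) = 1 :=
  (Classical.choose_spec
    (dsw2_exists_lift φ (dsw2_pred_pos (ℓ := ℓ)) (dsw2_res_pow (k := k) a⁻¹))).1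

theorem dsw2_w_res (a : (ZMod ℓ)ˣ) : φ (dsw2_w φ a) = dsw2_res a⁻¹ :=
  (Classical.choose_spec
    (dsw2_exists_lift φ (dsw2_pred_pos (ℓ := ℓ)) (dsw2_res_pow (k := k) a⁻¹))).2

theorem dsw2_w_eq {a : (ZMod ℓ)ˣ} {x : ds_Zb} (hx : x ^ (ℓ - 1) = 1)
    (hφ : φ x = dsw2_res a⁻¹) : dsw2_w φ a = x :=
  dsw2_inj φ (dsw2_pred_ne_zero (ℓ := ℓ) (k := k)) (dsw2_w_pow φ a) hx
    ((dsw2_w_res φ a).trans hφ.symm)

theorem dsw2_w_one : dsw2_w φ (1 : (ZMod ℓ)ˣ) = 1 :=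
  dsw2_w_eq φ (one_pow _) (by rw [map_one, inv_one, dsw2_res_one])

theorem dsw2_w_mul (a b : (ZMod ℓ)ˣ) : dsw2_w φ (a * b) = dsw2_w φ a * dsw2_w φ b :=
  dsw2_w_eq φ (by rw [mul_pow, dsw2_w_pow, dsw2_w_pow, one_mul])
    (by rw [map_mul, dsw2_w_res, dsw2_w_res, ← dsw2_res_mul, mul_inv])

theorem dsw2_w_mul_res (a : (ZMod ℓ)ˣ) : φ (dsw2_w φ a) * dsw2_res a = 1 := by
  rw [dsw2_w_res, ← dsw2_res_mul, inv_mul_cancel, dsw2_res_one]

theorem dsw2_w_neg_one (hℓ2 : ℓ ≠ 2) : dsw2_w φ (-1 : (ZMod ℓ)ˣ) = -1 := by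
  have hodd : Even (ℓ - 1) := by
    have := (Fact.out : ℓ.Prime).eq_one_or_self_of_dvd 2
    rcases (Fact.out : ℓ.Prime).eq_two_or_odd' with h | h
    · exact absurd h hℓ2
    · exact Nat.Odd.sub_odd h odd_one
  refine dsw2_w_eq φ (hodd.neg_one_pow) ?_
  rw [map_neg, map_one, inv_neg, inv_one, dsw2_res]
  simp

/-- the underlying monoid homomorphism `(ℤ/ℓ)ˣ → ℂ`. -/
def dsw2_hom : (ZMod ℓ)ˣ →* ℂ where
  toFun a := ((dsw2_w φ a : ds_Zb) : ℂ)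
  map_one' := by rw [dsw2_w_one]; rfl
  map_mul' a b := by rw [dsw2_w_mul]; rfl

/-- the inverse Teichmüller character attached to `φ`. -/
def dsw2_chi : DirichletCharacter ℂ ℓ := MulChar.ofUnitHom (dsw2_hom φ).toHomUnits

theorem dsw2_chi_unit (a : (ZMod ℓ)ˣ) : dsw2_chi φ (a : ZMod ℓ) = ((dsw2_w φ a : ds_Zb) : ℂ) := by
  rw [dsw2_chi, MulChar.ofUnitHom_coe, MonoidHom.coe_toHomUnits]
  rfl

theorem dsw2_chi_isIntegral (a : ZMod ℓ) : IsIntegral ℤ (dsw2_chi φ a) := by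
  by_cases ha : IsUnit a
  · obtain ⟨u, rfl⟩ := ha
    rw [dsw2_chi_unit]
    exact (dsw2_w φ u).2
  · rw [MulChar.map_nonunit _ ha]
    exact isIntegral_zero

theorem dsw2_chi_pow (a : (ZMod ℓ)ˣ) : dsw2_chi φ (a : ZMod ℓ) ^ (ℓ - 1) = 1 := by
  rw [dsw2_chi_unit]
  have := congrArg (fun x : ds_Zb => (x : ℂ)) (dsw2_w_pow φ a)
  simpa using this

theorem dsw2_chi_neg_one (hℓ2 : ℓ ≠ 2) : dsw2_chi φ (-1) = -1 := by
  have h : ((-1 : (ZMod ℓ)ˣ) : ZMod ℓ) = -1 := by simp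
  rw [← h, dsw2_chi_unit, dsw2_w_neg_one φ hℓ2]
  simp

theorem dsw2_chi_spec (a : (ZMod ℓ)ˣ) (x : ds_Zb) (hx : (x : ℂ) = dsw2_chi φ (a : ZMod ℓ)) :
    φ x * (((a : ZMod ℓ).val : ℕ) : k) = 1 := by
  have h : x = dsw2_w φ a := Subtype.ext (by rw [hx, dsw2_chi_unit])
  rw [h, dsw2_res_val, dsw2_w_mul_res]

/-- `w` extended by zero to `ℤ/ℓ`. -/
def dsw2_W (a : ZMod ℓ) : ds_Zb := if h : IsUnit a then dsw2_w φ h.unit else 0

theorem dsw2_W_coe (a : ZMod ℓ) : ((dsw2_W φ a : ds_Zb) : ℂ) = dsw2_chi φ a := by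
  by_cases ha : IsUnit a
  · rw [dsw2_W, dif_pos ha]
    conv_rhs => rw [← ha.unit_spec]
    rw [dsw2_chi_unit]
  · rw [dsw2_W, dif_neg ha, MulChar.map_nonunit _ ha]
    rfl

theorem dsw2_sum_ite (n : ℕ) :
    ∑ a ∈ Finset.range (n + 1), (if a = 0 then (0 : k) else 1) = n := by
  rw [Finset.sum_range_succ']
  simp

/-- `u = ∑_{a<ℓ} a χ(a) = ℓ B_{1,χ}`. -/
def dsw2_u : ds_Zb := ∑ a ∈ Finset.range ℓ, (a : ds_Zb) * dsw2_W φ (a : ZMod ℓ)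

theorem dsw2_u_coe :
    ((dsw2_u φ : ds_Zb) : ℂ) = ∑ a ∈ Finset.range ℓ, (a : ℂ) * dsw2_chi φ (a : ZMod ℓ) := by
  have h := map_sum (integralClosure ℤ ℂ).val
    (fun a : ℕ => (a : ds_Zb) * dsw2_W φ (a : ZMod ℓ)) (Finset.range ℓ)
  rw [dsw2_u]
  refine h.trans (Finset.sum_congr rfl fun a _ => ?_)
  rw [map_mul, map_natCast]
  congr 1
  exact dsw2_W_coe φ _

theorem dsw2_u_res : φ (dsw2_u φ) = -1 := by
  have hℓ : ℓ.Prime := Fact.out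
  have hterm : ∀ a ∈ Finset.range ℓ,
      φ ((a : ds_Zb) * dsw2_W φ (a : ZMod ℓ)) = if a = 0 then (0 : k) else 1 := by
    intro a ha
    have haℓ : a < ℓ := Finset.mem_range.mp ha
    by_cases h0 : a = 0
    · subst h0
      simp
    · rw [if_neg h0]
      have hne : ((a : ℕ) : ZMod ℓ) ≠ 0 := by
        intro h
        rw [CharP.cast_eq_zero_iff (ZMod ℓ) ℓ] at h
        exact Nat.not_dvd_of_pos_of_lt (Nat.pos_of_ne_zero h0) haℓ h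
      have hu : IsUnit ((a : ℕ) : ZMod ℓ) := isUnit_iff_ne_zero.mpr hne
      rw [dsw2_W, dif_pos hu, map_mul, map_natCast, mul_comm]
      have h2 : ((a : ℕ) : k) = dsw2_res hu.unit := by
        rw [dsw2_res, hu.unit_spec, map_natCast]
      rw [h2, dsw2_w_mul_res]
  rw [dsw2_u, map_sum, Finset.sum_congr rfl hterm]
  obtain ⟨m, hm⟩ : ∃ m, ℓ = m + 1 := Nat.exists_eq_succ_of_ne_zero hℓ.ne_zero
  have h3 : ((m : ℕ) : k) = -1 := by
    have : ((ℓ : ℕ) : k) = 0 := CharP.cast_eq_zero k ℓ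
    rw [hm] at this
    push_cast at this
    linear_combination this
  rw [← h3]
  have h4 := dsw2_sum_ite (k := k) m
  rw [← hm] at h4
  exact h4

end Main

/-- **[W2]** the inverse Teichmüller character relative to a residue map `φ : ℤ̄ → k`, `k` a field
of odd characteristic `ℓ`.  (For `ℓ = 2` the oddness clause is false.) -/
theorem dsw2_teich (ℓ : ℕ) [Fact ℓ.Prime] (hℓ2 : ℓ ≠ 2) (k : Type*) [Field k] [CharP k ℓ]
    (φ : ds_Zb →+* k) :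
    ∃ χ : DirichletCharacter ℂ ℓ, (∀ a : ZMod ℓ, IsIntegral ℤ (χ a)) ∧ χ (-1) = -1 ∧
      (∀ (a : (ZMod ℓ)ˣ) (x : ds_Zb), (x : ℂ) = χ (a : ZMod ℓ) →
        φ x * (((a : ZMod ℓ).val : ℕ) : k) = 1) ∧
      ∃ u : ds_Zb, (u : ℂ) = ∑ a ∈ Finset.range ℓ, (a : ℂ) * χ (a : ZMod ℓ) ∧ φ u = -1 :=
  ⟨dsw2_chi φ, dsw2_chi_isIntegral φ, dsw2_chi_neg_one φ hℓ2, dsw2_chi_spec φ,
    dsw2_u φ, dsw2_u_coe φ, dsw2_u_res φ⟩

/-- **[W2], extended form**: also `χ a ^ (ℓ-1) = 1` on units, and the values are determined by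
`φ`. -/
theorem dsw2_teich' (ℓ : ℕ) [Fact ℓ.Prime] (hℓ2 : ℓ ≠ 2) (k : Type*) [Field k] [CharP k ℓ]
    (φ : ds_Zb →+* k) :
    ∃ χ : DirichletCharacter ℂ ℓ, (∀ a : ZMod ℓ, IsIntegral ℤ (χ a)) ∧ χ (-1) = -1 ∧
      (∀ (a : (ZMod ℓ)ˣ) (x : ds_Zb), (x : ℂ) = χ (a : ZMod ℓ) →
        φ x * (((a : ZMod ℓ).val : ℕ) : k) = 1) ∧
      (∀ a : (ZMod ℓ)ˣ, χ (a : ZMod ℓ) ^ (ℓ - 1) = 1) ∧
      ∃ u : ds_Zb, (u : ℂ) = ∑ a ∈ Finset.range ℓ, (a : ℂ) * χ (a : ZMod ℓ) ∧ φ u = -1 :=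
  ⟨dsw2_chi φ, dsw2_chi_isIntegral φ, dsw2_chi_neg_one φ hℓ2, dsw2_chi_spec φ,
    dsw2_chi_pow φ, dsw2_u φ, dsw2_u_coe φ, dsw2_u_res φ⟩

end Fermat.Agent.DS
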